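/-
GATE-L / L1e-ABS RATIONALITY (helper80).  Descent of the field of coefficients for subfields of
Laurent series generated by series with coefficients in the small field.

`L ⊆ Ω` an ALGEBRAIC extension of fields, `S ⊆ L((q))`, `F_L := L(S) ⊆ L((q))`,
`F_Ω := Ω(ι_* S) ⊆ Ω((q))` (`ι_* = coeffMap (algebraMap L Ω)`).  Then

* `map_retraction_mem` : for every `L`-linear `φ : Ω → L` and `x ∈ F_Ω` the coefficientwise image
  `φ_* x` lies in `F_L`;
* **`exists_of_coeff_mem_range`** : `x ∈ F_Ω` with ALL coefficients in `L` is `ι_* y`, `y ∈ F_L`,
  i.e. `F_Ω ∩ L((q)) = F_L`;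
* `mem_adjoin_coeffMap_image` : the easy converse `ι_* F_L ⊆ F_Ω`.

The proof is pure linear algebra: `Ω(S) =` the `F_L`-span of `Ω` because `Ω/L` is algebraic
(`IntermediateField.adjoin_algebraic_toSubalgebra`), and an `L`-linear retraction `Ω → L` is applied
coefficientwise.  No Galois theory, no traces.
-/
import Mathlib
import Fermat.Prelude.Def_ModularCurve_LaurentCoeff

set_option autoImplicit false

noncomputable section

namespace Fermat.Agent.GL.Base.RatDescent

open ModularCurve HahnSeries

section Abstract

variable {L Om : Type*} [Field L] [Field Om] [Algebra L Om]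

/-- coefficientwise application of an `L`-linear map `Ω → L`, as an additive map. -/
def mapLin (φ : Om →ₗ[L] L) : LaurentSeries Om →+ LaurentSeries L where
  toFun x := x.map φ
  map_zero' := by
    ext k
    simp
  map_add' x y := by
    ext k
    simp

@[simp]
theorem mapLin_coeff (φ : Om →ₗ[L] L) (x : LaurentSeries Om) (k : ℤ) :
    (mapLin φ x).coeff k = φ (x.coeff k) := rfl

/-- `φ_* (ι_* f · c) = φ(c) · f`. -/
theorem mapLin_coeffMap_mul_algebraMap (φ : Om →ₗ[L] L) (f : LaurentSeries L) (c : Om) :
    mapLin φ (coeffMap (algebraMap L Om) f * algebraMap Om (LaurentSeries Om) c) =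
      algebraMap L (LaurentSeries L) (φ c) * f := by
  rw [algebraMap_laurentSeries_eq_single, algebraMap_laurentSeries_eq_single]
  ext k
  rw [mapLin_coeff]
  have h1 : (coeffMap (algebraMap L Om) f * single 0 c).coeff k =
      (coeffMap (algebraMap L Om) f).coeff k * c := by
    have := HahnSeries.coeff_mul_single_add (x := coeffMap (algebraMap L Om) f) (r := c)
      (a := k) (b := 0)
    rwa [add_zero] at this
  have h2 : (single 0 (φ c) * f).coeff k = φ c * f.coeff k := by
    have := HahnSeries.coeff_single_mul_add (x := f) (r := φ c) (a := k) (b := 0)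
    rwa [add_zero] at this
  rw [h1, h2, coeffMap_coeff, ← Algebra.smul_def, map_smul, smul_eq_mul, mul_comm]

variable (S : Set (LaurentSeries L))

/-- the image of `L(S)` in `Ω((q))`, a subfield. -/
def imgField : Subfield (LaurentSeries Om) :=
  (IntermediateField.adjoin L S).toSubfield.map (coeffMap (algebraMap L Om))

theorem mem_imgField {x : LaurentSeries Om} :
    x ∈ imgField (Om := Om) S ↔
      ∃ f ∈ IntermediateField.adjoin L S, coeffMap (algebraMap L Om) f = x := by
  rw [imgField, Subfield.mem_map]
  rfl

/-- the constants `Ω ⊆ Ω((q))`. -/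
def constSet : Set (LaurentSeries Om) := Set.range (algebraMap Om (LaurentSeries Om))

theorem closure_constSet :
    ((Submonoid.closure (constSet (Om := Om))) : Set (LaurentSeries Om)) = constSet := by
  have h : (constSet (Om := Om)) = ((algebraMap Om (LaurentSeries Om)).rangeS.toSubmonoid :
      Set (LaurentSeries Om)) := rfl
  rw [h, Submonoid.closure_eq]

/-- `L → L(S)^ι`, the structure map into the image subfield. -/
def toImg : L →+* imgField (Om := Om) S where
  toFun a := ⟨coeffMap (algebraMap L Om) (algebraMap L (LaurentSeries L) a),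
    (mem_imgField S).2 ⟨_, (IntermediateField.adjoin L S).algebraMap_mem a, rfl⟩⟩
  map_one' := Subtype.ext (by simp)
  map_mul' a b := Subtype.ext (by simp)
  map_zero' := Subtype.ext (by simp)
  map_add' a b := Subtype.ext (by simp)

theorem coeffMap_algebraMap' (a : L) :
    coeffMap (algebraMap L Om) (algebraMap L (LaurentSeries L) a) =
      algebraMap Om (LaurentSeries Om) (algebraMap L Om a) := by
  rw [algebraMap_laurentSeries_eq_single, coeffMap_single, algebraMap_laurentSeries_eq_single]

variable [Algebra.IsAlgebraic L Om]

/-- constants are algebraic over the image subfield. -/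
theorem isAlgebraic_const (c : Om) :
    IsAlgebraic (imgField (Om := Om) S) (algebraMap Om (LaurentSeries Om) c) := by
  have hc : IsIntegral L c := (Algebra.IsAlgebraic.isAlgebraic c).isIntegral
  have h := IsIntegral.map_of_comp_eq (toImg (Om := Om) S) (algebraMap Om (LaurentSeries Om))
    (RingHom.ext fun a => by
      show ((toImg (Om := Om) S a : imgField (Om := Om) S) : LaurentSeries Om) = _
      exact coeffMap_algebraMap' a) hc
  exact h.isAlgebraic

/-- `Ω(ι_* S)` is contained in the `ι_*L(S)`-span of `Ω`. -/
theorem adjoin_le_span {x : LaurentSeries Om}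
    (hx : x ∈ IntermediateField.adjoin Om (coeffMap (algebraMap L Om) '' S)) :
    x ∈ Submodule.span (imgField (Om := Om) S) (constSet (Om := Om)) := by
  have hT : (IntermediateField.adjoin (imgField (Om := Om) S) (constSet (Om := Om))).toSubalgebra =
      Algebra.adjoin (imgField (Om := Om) S) (constSet (Om := Om)) :=
    IntermediateField.adjoin_toSubalgebra_of_isAlgebraic (by
      rintro _ ⟨c, rfl⟩
      exact isAlgebraic_const S c)
  have hmem : x ∈ IntermediateField.adjoin (imgField (Om := Om) S) (constSet (Om := Om)) := by
    have key : (IntermediateField.adjoin Om (coeffMap (algebraMap L Om) '' S)).toSubfield ≤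
        (IntermediateField.adjoin (imgField (Om := Om) S) (constSet (Om := Om))).toSubfield := by
      apply IntermediateField.adjoin_le_subfield
      · rintro _ ⟨c, rfl⟩
        exact IntermediateField.subset_adjoin _ _ ⟨c, rfl⟩
      · rintro _ ⟨s, hs, rfl⟩
        have h1 : coeffMap (algebraMap L Om) s ∈ imgField (Om := Om) S :=
          (mem_imgField S).2 ⟨s, IntermediateField.subset_adjoin L S hs, rfl⟩
        exact (IntermediateField.adjoin (imgField (Om := Om) S) (constSet (Om := Om))).algebraMap_mem
          ⟨_, h1⟩
    exact key hx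
  have h2 : x ∈ Algebra.adjoin (imgField (Om := Om) S) (constSet (Om := Om)) := by
    rw [← hT]
    exact hmem
  have h3 := Algebra.adjoin_eq_span (imgField (Om := Om) S) (constSet (Om := Om))
  have h4 : x ∈ (Algebra.adjoin (imgField (Om := Om) S) (constSet (Om := Om))).toSubmodule := h2
  rw [h3, closure_constSet] at h4
  exact h4

/-- **retraction lemma**: an `L`-linear map `Ω → L`, applied coefficientwise, maps `Ω(ι_* S)` into
`L(S)`. -/
theorem map_retraction_mem (φ : Om →ₗ[L] L) {x : LaurentSeries Om}
    (hx : x ∈ IntermediateField.adjoin Om (coeffMap (algebraMap L Om) '' S)) :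
    mapLin φ x ∈ IntermediateField.adjoin L S := by
  have key : ∀ f ∈ IntermediateField.adjoin L S,
      mapLin φ (coeffMap (algebraMap L Om) f * x) ∈ IntermediateField.adjoin L S := by
    have hspan := adjoin_le_span S hx
    clear hx
    induction hspan using Submodule.span_induction with
    | mem y hy =>
        obtain ⟨c, rfl⟩ := hy
        intro f hf
        rw [mapLin_coeffMap_mul_algebraMap]
        exact mul_mem ((IntermediateField.adjoin L S).algebraMap_mem _) hf
    | zero =>
        intro f _
        rw [mul_zero, map_zero]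
        exact zero_mem _
    | add y z _ _ hy hz =>
        intro f hf
        rw [mul_add, map_add]
        exact add_mem (hy f hf) (hz f hf)
    | smul a y _ hy =>
        intro f hf
        obtain ⟨g, hg, hga⟩ := (mem_imgField S).1 a.2
        have h1 : coeffMap (algebraMap L Om) f * (a • y) =
            coeffMap (algebraMap L Om) (f * g) * y := by
          rw [Subfield.smul_def, ← hga, map_mul, smul_eq_mul, mul_assoc]
        rw [h1]
        exact hy _ (mul_mem hf hg)
  have := key 1 (one_mem _)
  rwa [map_one, one_mul] at this

/-- **RATIONALITY**: `Ω(ι_* S) ∩ L((q)) = ι_* L(S)`. -/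
theorem exists_of_coeff_mem_range {x : LaurentSeries Om}
    (hx : x ∈ IntermediateField.adjoin Om (coeffMap (algebraMap L Om) '' S))
    (hc : ∀ k : ℤ, x.coeff k ∈ Set.range (algebraMap L Om)) :
    ∃ y ∈ IntermediateField.adjoin L S, coeffMap (algebraMap L Om) y = x := by
  obtain ⟨φ, hφ⟩ := LinearMap.exists_leftInverse_of_injective (Algebra.linearMap L Om)
    (by
      rw [LinearMap.ker_eq_bot]
      exact (algebraMap L Om).injective)
  refine ⟨mapLin φ x, map_retraction_mem S φ hx, ?_⟩
  ext k
  rw [coeffMap_coeff, mapLin_coeff]
  obtain ⟨a, ha⟩ := hc k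
  rw [← ha]
  have := LinearMap.congr_fun hφ a
  simp only [LinearMap.coe_comp, Function.comp_apply, Algebra.linearMap_apply,
    LinearMap.id_coe, id_eq] at this
  rw [this]

omit [Algebra.IsAlgebraic L Om] in
/-- the easy converse: `ι_* L(S) ⊆ Ω(ι_* S)`. -/
theorem mem_adjoin_coeffMap_image {y : LaurentSeries L} (hy : y ∈ IntermediateField.adjoin L S) :
    coeffMap (algebraMap L Om) y ∈
      IntermediateField.adjoin Om (coeffMap (algebraMap L Om) '' S) := by
  have key : (IntermediateField.adjoin L S).toSubfield ≤
      (IntermediateField.adjoin Om (coeffMap (algebraMap L Om) '' S)).toSubfield.comap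
        (coeffMap (algebraMap L Om)) := by
    apply IntermediateField.adjoin_le_subfield
    · rintro _ ⟨c, rfl⟩
      rw [SetLike.mem_coe, Subfield.mem_comap, IntermediateField.mem_toSubfield,
        coeffMap_algebraMap']
      exact IntermediateField.algebraMap_mem _ _
    · intro s hs
      rw [SetLike.mem_coe, Subfield.mem_comap, IntermediateField.mem_toSubfield]
      exact IntermediateField.subset_adjoin Om _ ⟨s, hs, rfl⟩
  exact key hy

end Abstract

end Fermat.Agent.GL.Base.RatDescent
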