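/-
GATE-L / L1e-ABS RATIONALITY part 2 (helper80).  Modular instances of `GL/Base/RatDescent.lean`.

`L ⊆ Ω` algebraic (`ℚ ⊆ L`), `ι_* = coeffMap (algebraMap L Ω)`.

* `exists_fullC_of_coeff_mem_range` : `x ∈ Ω(X₀(N)) = modularFunctionFieldFullC Ω N` with all
  coefficients in `L` is `ι_* y` with `y ∈ L(X₀(N)) = modularFunctionFieldFullC L N`;
* `exists_baseChange_of_coeff_mem_range` : the same for `laurentBaseChange Ω F₀` versus
  `laurentBaseChange L F₀` (any `F₀ ≤ ℚ((q))`);
* **`exists_baseChange_of_fixed`** : GROUP FORM.  `H` any set of automorphisms of `Ω/ℚ` whose common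
  fixed points lie in `L`; `x ∈ laurentBaseChange Ω F₀` with `arithmeticRingAut F₀ σ x = x` for all
  `σ ∈ H` comes from `laurentBaseChange L F₀`;
* `exists_inertiaField_of_fixed`, `exists_fullC_inertiaField_of_fixed` : `Ω = ℚ̄`,
  `H = I_A` the inertia group of a valuation subring `A` of `ℚ̄`, `L = K₀ = ℚ̄^{I_A}` (helper26
  `inertiaField A`) : `F_N^{I_A} = K₀(X₀(N))`;
* `exists_fullC_of_galUnits_fixed` : unit form, matching the output of helper1's
  `InvDescentFK.exists_invariant_kum_rep` (`galUnits N σ u = u` for `σ ∈ I_A`).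
-/
import Fermat.Agent.GL.Base.RatDescent
import Fermat.Agent.GL.Local.InertiaField
import Fermat.Agent.GL.Coh.InvDescentFK
import Fermat.Agent.S24_helper62.FieldGen
import Fermat.Agent.GK.Val.GaussBaseChange
import Fermat.Prelude.Thm_ModularCurve_coeffMap_qExpand

set_option autoImplicit false

noncomputable section

namespace Fermat.Agent.GL.Base.RatDescent

open ModularCurve HahnSeries

section FullC

variable {L Om : Type*} [Field L] [Field Om] [Algebra L Om]

/-- the generators of `Ω(X₀(N))` are the images of the generators of `L(X₀(N))`. -/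
theorem coeffMap_image_divisorExpansionsC (N : ℕ) :
    coeffMap (algebraMap L Om) '' divisorExpansionsC L N = divisorExpansionsC Om N := by
  ext x
  constructor
  · rintro ⟨_, ⟨d, hne, hd, rfl⟩, rfl⟩
    have := hne
    exact ⟨d, hne, hd, by rw [coeffMap_qExpand, coeffMap_jqModC]⟩
  · rintro ⟨d, hne, hd, rfl⟩
    have := hne
    exact ⟨qExpand L d (jqModC L), ⟨d, hne, hd, rfl⟩, by rw [coeffMap_qExpand, coeffMap_jqModC]⟩

variable [Algebra.IsAlgebraic L Om]

/-- **`Ω(X₀(N)) ∩ L((q)) = L(X₀(N))`**. -/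
theorem exists_fullC_of_coeff_mem_range (N : ℕ) {x : LaurentSeries Om}
    (hx : x ∈ modularFunctionFieldFullC Om N)
    (hc : ∀ k : ℤ, x.coeff k ∈ Set.range (algebraMap L Om)) :
    ∃ y ∈ modularFunctionFieldFullC L N, coeffMap (algebraMap L Om) y = x := by
  unfold modularFunctionFieldFullC at hx ⊢
  rw [← coeffMap_image_divisorExpansionsC (L := L) N] at hx
  exact exists_of_coeff_mem_range _ hx hc

end FullC

section BaseChange

variable {L Om : Type*} [Field L] [Field Om] [Algebra ℚ L] [Algebra ℚ Om] [Algebra L Om]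
  [IsScalarTower ℚ L Om]

theorem coeffMap_coeffEmb' (z : LaurentSeries ℚ) :
    coeffMap (algebraMap L Om) (coeffEmb L z) = coeffEmb Om z := by
  rw [coeffEmb, coeffEmb, coeffMap_coeffMap]
  exact coeffMap_congr (IsScalarTower.algebraMap_eq ℚ L Om).symm z

theorem coeffMap_image_coeffEmb (F₀ : IntermediateField ℚ (LaurentSeries ℚ)) :
    coeffMap (algebraMap L Om) '' (⇑(coeffEmb L) '' (F₀ : Set (LaurentSeries ℚ))) =
      ⇑(coeffEmb Om) '' (F₀ : Set (LaurentSeries ℚ)) := by
  rw [Set.image_image]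
  exact Set.image_congr fun z _ => coeffMap_coeffEmb' z

variable (F₀ : IntermediateField ℚ (LaurentSeries ℚ))

/-- `ι_*` maps `laurentBaseChange L F₀` into `laurentBaseChange Ω F₀`. -/
theorem coeffMap_mem_baseChange {y : LaurentSeries L} (hy : y ∈ laurentBaseChange L F₀) :
    coeffMap (algebraMap L Om) y ∈ laurentBaseChange Om F₀ := by
  unfold laurentBaseChange at hy ⊢
  rw [← coeffMap_image_coeffEmb (L := L) F₀]
  exact mem_adjoin_coeffMap_image _ hy

/-- the base extension `laurentBaseChange L F₀ →+* laurentBaseChange Ω F₀`. -/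
def bcMap : laurentBaseChange L F₀ →+* laurentBaseChange Om F₀ where
  toFun y := ⟨coeffMap (algebraMap L Om) (y : LaurentSeries L), coeffMap_mem_baseChange F₀ y.2⟩
  map_one' := Subtype.ext (map_one _)
  map_mul' _ _ := Subtype.ext (map_mul _ _ _)
  map_zero' := Subtype.ext (map_zero _)
  map_add' _ _ := Subtype.ext (map_add _ _ _)

@[simp]
theorem coe_bcMap (y : laurentBaseChange L F₀) :
    ((bcMap (Om := Om) F₀ y : laurentBaseChange Om F₀) : LaurentSeries Om) =
      coeffMap (algebraMap L Om) (y : LaurentSeries L) := rfl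

theorem bcMap_injective : Function.Injective (bcMap (L := L) (Om := Om) F₀) :=
  (bcMap (L := L) (Om := Om) F₀).injective

variable [Algebra.IsAlgebraic L Om]

/-- **`laurentBaseChange Ω F₀ ∩ L((q)) = laurentBaseChange L F₀`**. -/
theorem exists_baseChange_of_coeff_mem_range {x : LaurentSeries Om}
    (hx : x ∈ laurentBaseChange Om F₀)
    (hc : ∀ k : ℤ, x.coeff k ∈ Set.range (algebraMap L Om)) :
    ∃ y ∈ laurentBaseChange L F₀, coeffMap (algebraMap L Om) y = x := by
  unfold laurentBaseChange at hx ⊢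
  rw [← coeffMap_image_coeffEmb (L := L) F₀] at hx
  exact exists_of_coeff_mem_range _ hx hc

/-- **GROUP FORM**: if the common fixed points in `Ω` of a set `H` of automorphisms lie in `L`, then
the `H`-fixed elements of `laurentBaseChange Ω F₀` (coefficientwise action) come from
`laurentBaseChange L F₀`. -/
theorem exists_baseChange_of_fixed (H : Set (Om ≃ₐ[ℚ] Om))
    (hH : ∀ a : Om, (∀ σ ∈ H, σ a = a) → a ∈ Set.range (algebraMap L Om))
    (x : laurentBaseChange Om F₀) (hx : ∀ σ ∈ H, arithmeticRingAut F₀ σ x = x) :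
    ∃ y : laurentBaseChange L F₀, bcMap F₀ y = x := by
  obtain ⟨y, hy, hyx⟩ := exists_baseChange_of_coeff_mem_range (L := L) F₀ x.2 (fun k =>
    hH _ fun σ hσ => by
      have h1 := congrArg (fun z : laurentBaseChange Om F₀ => (z : LaurentSeries Om).coeff k)
        (hx σ hσ)
      simpa using h1)
  exact ⟨⟨y, hy⟩, Subtype.ext hyx⟩

end BaseChange

/-! ### The inertia field of `A ⊂ ℚ̄` -/

section Inertia

open Fermat.Agent.GL.Local.InertiaField

local notation "Qb" => AlgebraicClosure ℚ
local notation "GQ" => (AlgebraicClosure ℚ ≃ₐ[ℚ] AlgebraicClosure ℚ)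

variable (A : ValuationSubring Qb) (F₀ : IntermediateField ℚ (LaurentSeries ℚ))

instance isAlgebraic_inertiaField : Algebra.IsAlgebraic (inertiaField A) Qb :=
  Algebra.IsAlgebraic.tower_top (K := ℚ) (inertiaField A)

/-- **`F^{I_A} = K₀·F₀`** : the `I_A`-invariants of `laurentBaseChange ℚ̄ F₀` are
`laurentBaseChange K₀ F₀`, `K₀ = ℚ̄^{I_A}`. -/
theorem exists_inertiaField_of_fixed (x : laurentBaseChange Qb F₀)
    (hx : ∀ σ ∈ A.inertiaSubgroupIn ℚ, arithmeticRingAut F₀ σ x = x) :
    ∃ y : laurentBaseChange (inertiaField A) F₀, bcMap F₀ y = x :=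
  exists_baseChange_of_fixed (L := inertiaField A) F₀
    ((A.inertiaSubgroupIn ℚ : Subgroup GQ) : Set GQ)
    (fun a ha => ⟨⟨a, (mem_inertiaField_iff A a).2 ha⟩, rfl⟩) x hx

/-- converse: elements coming from `K₀·F₀` are `I_A`-fixed. -/
theorem arithmeticRingAut_bcMap (y : laurentBaseChange (inertiaField A) F₀) {σ : GQ}
    (hσ : σ ∈ A.inertiaSubgroupIn ℚ) :
    arithmeticRingAut F₀ σ (bcMap (Om := Qb) F₀ y) = bcMap F₀ y := by
  apply Subtype.ext
  rw [coe_arithmeticRingAut_apply, coe_bcMap, coeffMap_coeffMap]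
  refine coeffMap_congr (RingHom.ext fun a => ?_) _
  exact (mem_inertiaField_iff A (a : Qb)).1 a.2 σ hσ

/-- **`F_N^{I_A} = K₀(X₀(N))`**, `modularFunctionFieldFullC` form. -/
theorem exists_fullC_inertiaField_of_fixed (N : ℕ)
    (x : laurentBaseChange Qb (modularFunctionFieldFull N))
    (hx : ∀ σ ∈ A.inertiaSubgroupIn ℚ,
      arithmeticRingAut (modularFunctionFieldFull N) σ x = x) :
    ∃ y ∈ modularFunctionFieldFullC (inertiaField A) N,
      coeffMap (algebraMap (inertiaField A) Qb) y = (x : LaurentSeries Qb) := by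
  obtain ⟨y, hy⟩ := exists_inertiaField_of_fixed A (modularFunctionFieldFull N) x hx
  refine ⟨(y : LaurentSeries (inertiaField A)), ?_, ?_⟩
  · rw [← Fermat.Agent.S24_helper62.laurentBaseChange_full]
    exact y.2
  · rw [← hy, coe_bcMap]

/-- `mapC` form (helper45 `GK/Val/GaussBaseChange`): an `I_A`-fixed element of `F_N` is
`mapC ι N y` for a unique `y ∈ K₀(X₀(N))`; `mem_RwC_iff`/`redL_mapC` then transport the cusp-`∞`
Gauss valuation and its reduction. -/
theorem exists_mapC_of_fixed (N : ℕ)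
    (x : laurentBaseChange Qb (modularFunctionFieldFull N))
    (hx : ∀ σ ∈ A.inertiaSubgroupIn ℚ,
      arithmeticRingAut (modularFunctionFieldFull N) σ x = x) :
    ∃ y : modularFunctionFieldFullC (inertiaField A) N,
      ((Fermat.Agent.GK.Val.BaseChange.mapC (algebraMap (inertiaField A) Qb) N y :
        modularFunctionFieldFullC Qb N) : LaurentSeries Qb) = (x : LaurentSeries Qb) := by
  obtain ⟨y, hy, hyx⟩ := exists_fullC_inertiaField_of_fixed A N x hx
  exact ⟨⟨y, hy⟩, hyx⟩

/-! ### Unit form (output of helper1's `exists_invariant_kum_rep`) -/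

open Fermat.Agent.GJ.Kum.KumType Fermat.Agent.GJ.KumGroup

/-- the base extension `K₀(X₀(N)) →+* F_N`. -/
abbrev toFK (N : ℕ) : laurentBaseChange (inertiaField A) (modularFunctionFieldFull N) →+* FK N :=
  bcMap (L := inertiaField A) (Om := Qb) (modularFunctionFieldFull N)

/-- **an `I_A`-fixed unit of `F_N` is (the image of) a unit of `K₀(X₀(N))`**. -/
theorem exists_unit_of_galUnits_fixed (N : ℕ) (u : (FK N)ˣ)
    (hu : ∀ σ ∈ A.inertiaSubgroupIn ℚ, galUnits N σ u = u) :
    ∃ v : (laurentBaseChange (inertiaField A) (modularFunctionFieldFull N))ˣ,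
      Units.map (toFK A N : _ →* FK N) v = u := by
  obtain ⟨y, hy⟩ := exists_inertiaField_of_fixed A (modularFunctionFieldFull N) (u : FK N)
    (fun σ hσ => by
      have h := congrArg (fun w : (FK N)ˣ => (w : FK N)) (hu σ hσ)
      simpa using h)
  have hy0 : y ≠ 0 := by
    rintro rfl
    rw [map_zero] at hy
    exact u.ne_zero hy.symm
  exact ⟨Units.mk0 y hy0, Units.ext hy⟩

end Inertia

end Fermat.Agent.GL.Base.RatDescent
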