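/-
GATE-L / L1e-DEG, abstract part (helper1): **`L((q))` and `Ω` are linearly disjoint over `L`**.

`L ⊆ Ω` fields, `Ω / L` algebraic, `ι_* : L((q)) → Ω((q))` the coefficientwise embedding,
`S ⊆ L((q))`.  On top of helper80's coefficientwise retractions `mapLin φ` (`φ : Ω →ₗ[L] L`):

* `mapLin_coeffMap_mul` : `φ_*(ι_* w · x) = w · φ_* x` for ALL `w ∈ L((q))`, `x ∈ Ω((q))`;
* `eq_zero_of_forall_mapLin` : `x = 0` as soon as `φ_* x = 0` for every `φ`;
* `sum_eq_zero_imp` : a family `w_i ∈ L((q))` which is linearly independent over `L(S)` stays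
  linearly independent over `Ω(ι_* S)` (explicit-sum form inside `Ω((q))`);
* `card_le_of_linearIndependent` / `rank_le` / `finrank_le` : consequently
  `[E₁ : L(S)] ≤ [E₂ : Ω(ι_* S)]` for fields `L(S) ≤ E₁`, `Ω(ι_* S) ≤ E₂` with `ι_* E₁ ⊆ E₂` and
  `E₂ / Ω(ι_* S)` finite (relative-rank form inside the Laurent series fields).

No Galois theory.
-/
import Mathlib
import Fermat.Agent.GL.Base.RatDescent

set_option autoImplicit false

noncomputable section

namespace Fermat.Agent.GL.Base.LinDisjoint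

open ModularCurve HahnSeries Fermat.Agent.GL.Base.RatDescent

variable {L Om : Type*} [Field L] [Field Om] [Algebra L Om]

/-- `φ_*(ι_* w · x) = w · φ_* x` -/
theorem mapLin_coeffMap_mul (φ : Om →ₗ[L] L) (w : LaurentSeries L) (x : LaurentSeries Om) :
    mapLin φ (coeffMap (algebraMap L Om) w * x) = w * mapLin φ x := by
  ext k
  have hsupp1 : (coeffMap (algebraMap L Om) w).support ⊆ w.support := by
    intro a ha
    rw [HahnSeries.mem_support] at ha ⊢
    intro h
    exact ha (by rw [coeffMap_coeff, h, map_zero])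
  have hsupp2 : (mapLin φ x).support ⊆ x.support := by
    intro a ha
    rw [HahnSeries.mem_support] at ha ⊢
    intro h
    exact ha (by rw [mapLin_coeff, h, map_zero])
  rw [mapLin_coeff, HahnSeries.coeff_mul_left' w.isPWO_support hsupp1,
    HahnSeries.coeff_mul_right' x.isPWO_support hsupp2, map_sum]
  refine Finset.sum_congr rfl fun ij _ => ?_
  rw [coeffMap_coeff, mapLin_coeff, ← Algebra.smul_def, map_smul, smul_eq_mul]

/-- `φ_*(x · ι_* w) = φ_* x · w` -/
theorem mapLin_mul_coeffMap (φ : Om →ₗ[L] L) (x : LaurentSeries Om) (w : LaurentSeries L) :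
    mapLin φ (x * coeffMap (algebraMap L Om) w) = mapLin φ x * w := by
  rw [mul_comm, mapLin_coeffMap_mul, mul_comm]

/-- the coefficientwise retractions separate points -/
theorem eq_zero_of_forall_mapLin {x : LaurentSeries Om}
    (h : ∀ φ : Om →ₗ[L] L, mapLin φ x = 0) : x = 0 := by
  ext k
  rw [HahnSeries.coeff_zero]
  refine (Module.forall_dual_apply_eq_zero_iff L (x.coeff k)).mp fun φ => ?_
  have := congrArg (fun y : LaurentSeries L => y.coeff k) (h φ)
  simpa using this

variable (S : Set (LaurentSeries L)) [Algebra.IsAlgebraic L Om]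

/-- **linear disjointness**: a relation `∑ c_i · ι_* w_i = 0` with coefficients `c_i ∈ Ω(ι_* S)`
and `w_i ∈ L((q))` linearly independent over `L(S)` is trivial. -/
theorem sum_eq_zero_imp {ι : Type*} (w : ι → LaurentSeries L)
    (hw : ∀ (s : Finset ι) (g : ι → LaurentSeries L),
      (∀ i, g i ∈ IntermediateField.adjoin L S) → ∑ i ∈ s, g i * w i = 0 → ∀ i ∈ s, g i = 0)
    (s : Finset ι) (c : ι → LaurentSeries Om)
    (hc : ∀ i, c i ∈ IntermediateField.adjoin Om (coeffMap (algebraMap L Om) '' S))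
    (hsum : ∑ i ∈ s, c i * coeffMap (algebraMap L Om) (w i) = 0) : ∀ i ∈ s, c i = 0 := by
  intro i hi
  refine eq_zero_of_forall_mapLin (L := L) fun φ => ?_
  refine hw s (fun i => mapLin φ (c i)) (fun i => map_retraction_mem S φ (hc i)) ?_ i hi
  have h1 := congrArg (mapLin φ) hsum
  rw [map_sum, map_zero] at h1
  rw [← h1]
  exact Finset.sum_congr rfl fun i _ => (mapLin_mul_coeffMap φ (c i) (w i)).symm

/-! ### Rank form -/

section Simple

variable {K Ω : Type*} [Field K] [Field Ω] [Algebra K Ω]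

open IntermediateField in
theorem map_adjoin_simple (E : IntermediateField K Ω) (z : E) :
    (K⟮z⟯).map E.val = K⟮(z : Ω)⟯ := by
  rw [adjoin_map, Set.image_singleton]
  rfl

open IntermediateField in
theorem coe_mem_adjoin_simple (E : IntermediateField K Ω) (z : E) (g : ↥(K⟮z⟯)) :
    ((g : E) : Ω) ∈ K⟮(z : Ω)⟯ := by
  rw [← map_adjoin_simple E z]
  exact ⟨(g : E), g.2, rfl⟩

open IntermediateField in
theorem exists_of_mem_adjoin_simple (E : IntermediateField K Ω) (z : E) {c : Ω}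
    (hc : c ∈ K⟮(z : Ω)⟯) : ∃ g : ↥(K⟮z⟯), ((g : E) : Ω) = c := by
  rw [← map_adjoin_simple E z] at hc
  obtain ⟨g, hg, rfl⟩ := hc
  exact ⟨⟨g, hg⟩, rfl⟩

end Simple

section Rank

open IntermediateField

variable (E₁ : IntermediateField L (LaurentSeries L))
  (E₂ : IntermediateField Om (LaurentSeries Om)) (z : ↥E₁) (z' : ↥E₂)
  (hz' : (z' : LaurentSeries Om) = coeffMap (algebraMap L Om) (z : LaurentSeries L))

include hz' in
/-- **linear independence over `L(z)` is preserved by the base change `L → Ω`** -/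
theorem linearIndependent_map {ι : Type*} (b : ι → ↥E₁) (hb : LinearIndependent ↥(L⟮z⟯) b)
    (b' : ι → ↥E₂)
    (hb' : ∀ i, (b' i : LaurentSeries Om) = coeffMap (algebraMap L Om) (b i : LaurentSeries L)) :
    LinearIndependent ↥(Om⟮z'⟯) b' := by
  classical
  rw [linearIndependent_iff'] at hb ⊢
  intro s g' hsum i hi
  have hw : ∀ (s : Finset ι) (g : ι → LaurentSeries L),
      (∀ i, g i ∈ IntermediateField.adjoin L ({(z : LaurentSeries L)} : Set (LaurentSeries L))) →
      ∑ i ∈ s, g i * (b i : LaurentSeries L) = 0 → ∀ i ∈ s, g i = 0 := by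
    intro s g hg hs i hi
    choose g₀ hg₀ using fun i => exists_of_mem_adjoin_simple E₁ z (hg i)
    have h1 : ∑ i ∈ s, g₀ i • b i = 0 := by
      refine Subtype.ext ?_
      have h2 : ((∑ i ∈ s, g₀ i • b i : ↥E₁) : LaurentSeries L) =
          ∑ i ∈ s, ((g₀ i : ↥E₁) : LaurentSeries L) * (b i : LaurentSeries L) := by
        rw [← E₁.coe_val, map_sum]
        rfl
      rw [h2]
      show _ = (0 : LaurentSeries L)
      rw [← hs]
      exact Finset.sum_congr rfl fun i _ => by rw [hg₀ i]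
    rw [← hg₀ i, hb s g₀ h1 i hi]
    rfl
  have hc : ∀ i, (((g' i : ↥(Om⟮z'⟯)) : ↥E₂) : LaurentSeries Om) ∈
      IntermediateField.adjoin Om (coeffMap (algebraMap L Om) '' ({(z : LaurentSeries L)} :
        Set (LaurentSeries L))) := by
    intro i
    rw [Set.image_singleton, ← hz']
    exact coe_mem_adjoin_simple E₂ z' (g' i)
  have hsum' : ∑ i ∈ s, (((g' i : ↥(Om⟮z'⟯)) : ↥E₂) : LaurentSeries Om) *
      coeffMap (algebraMap L Om) (b i : LaurentSeries L) = 0 := by
    have h2 : ((∑ i ∈ s, g' i • b' i : ↥E₂) : LaurentSeries Om) =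
        ∑ i ∈ s, (((g' i : ↥(Om⟮z'⟯)) : ↥E₂) : LaurentSeries Om) * (b' i : LaurentSeries Om) := by
      rw [← E₂.coe_val, map_sum]
      rfl
    rw [hsum] at h2
    rw [← show ((0 : ↥E₂) : LaurentSeries Om) = 0 from rfl, h2]
    exact Finset.sum_congr rfl fun i _ => by rw [hb' i]
  have h3 := sum_eq_zero_imp ({(z : LaurentSeries L)} : Set (LaurentSeries L))
    (fun i => (b i : LaurentSeries L)) hw s
    (fun i => (((g' i : ↥(Om⟮z'⟯)) : ↥E₂) : LaurentSeries Om)) hc hsum' i hi
  exact Subtype.ext (Subtype.ext h3)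

include hz' in
/-- **`[E₁ : L(z)] ≤ [E₂ : Ω(z)]`** when `ι_* E₁ ⊆ E₂` and the right-hand side is finite. -/
theorem finrank_le (hE : ∀ y ∈ E₁, coeffMap (algebraMap L Om) y ∈ E₂)
    [FiniteDimensional ↥(Om⟮z'⟯) ↥E₂] :
    FiniteDimensional ↥(L⟮z⟯) ↥E₁ ∧
      Module.finrank ↥(L⟮z⟯) ↥E₁ ≤ Module.finrank ↥(Om⟮z'⟯) ↥E₂ := by
  have hrank : Module.rank ↥(L⟮z⟯) ↥E₁ ≤ (Module.finrank ↥(Om⟮z'⟯) ↥E₂ : ℕ) := by
    refine rank_le fun s hs => ?_
    have h1 := linearIndependent_map E₁ E₂ z z' hz' (fun i : s => (i : ↥E₁)) hs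
      (fun i : s => (⟨coeffMap (algebraMap L Om) ((i : ↥E₁) : LaurentSeries L),
        hE _ (i : ↥E₁).2⟩ : ↥E₂)) (fun i => rfl)
    have h2 := h1.fintype_card_le_finrank
    rwa [Fintype.card_coe] at h2
  have : Module.Free ↥(L⟮z⟯) ↥E₁ := Module.Free.of_divisionRing _ _
  have hfin : FiniteDimensional ↥(L⟮z⟯) ↥E₁ :=
    Module.rank_lt_aleph0_iff.mp (hrank.trans_lt (Cardinal.natCast_lt_aleph0))
  exact ⟨hfin, Module.finrank_le_of_rank_le hrank⟩

end Rank

end Fermat.Agent.GL.Base.LinDisjoint
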