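/-
GATE-L / L1e-DEG, concrete part (helper1): **`[L(X₀(N)) : L(j)] ≤ ψ(N)`, finite, for EVERY field
`L` which embeds into `ℚ̄`** (e.g. `K₀ = ℚ̄^{I_A}`, helper45's `K0 A` with `ι0 A`).

* `isAlgebraic_of_ringHom` : `ℚ̄` is algebraic over any field mapping to it;
* `coeffMap_mem_bar` : `ι_* (L(X₀(N))) ⊆ ℚ̄(X₀(N)) = modularFunctionFieldBar N`;
* `finrank_fullC_le` : for `z : L(X₀(N))` with `q`-expansion `j` :
    `FiniteDimensional L⟮z⟯ L(X₀(N))` and `finrank L⟮z⟯ L(X₀(N)) ≤ ψ(N)`.

The reverse inequality is the fundamental inequality `∑ e_i f_i ≤ [F : K]` (helper90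
`card_le_finrank_ram'`); together they are the hypothesis `finrank K F ≤ card J` of helper75's
`NoOtherExt.exists_eq_of_finrank_le`.
-/
import Mathlib
import Fermat.Agent.GL.Base.LinDisjoint
import Fermat.Agent.GL.Base.RatDescentFullC
import Fermat.Agent.S24_helper62.CuspFibre

set_option autoImplicit false

noncomputable section

namespace Fermat.Agent.GL.Base.DegreeFullC

open ModularCurve HahnSeries IntermediateField
open Fermat.Agent.GL.Base.RatDescent Fermat.Agent.GL.Base.LinDisjoint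

local notation "Qb" => AlgebraicClosure ℚ

/-- `ℚ̄` is algebraic over every field mapping to it -/
theorem isAlgebraic_of_ringHom {L : Type*} [Field L] (ι : L →+* Qb) :
    @Algebra.IsAlgebraic L Qb _ _ ι.toAlgebra := by
  let _ : Algebra L Qb := ι.toAlgebra
  have : CharZero L := ι.charZero
  refine ⟨fun x => ?_⟩
  have h1 : IsAlgebraic ℚ x := (AlgebraicClosure.isAlgebraic ℚ).isAlgebraic x
  have h2 : IsAlgebraic ℤ x := (IsFractionRing.isAlgebraic_iff ℤ ℚ Qb).mpr h1
  exact h2.extendScalars (R := ℤ) (S := L) (RingHom.injective_int (algebraMap ℤ L))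

section Main

variable {L : Type*} [Field L] (ι : L →+* Qb) (N : ℕ)

/-- `ι_* (L(X₀(N))) ⊆ ℚ̄(X₀(N))` -/
theorem coeffMap_mem_bar {y : LaurentSeries L} (hy : y ∈ modularFunctionFieldFullC L N) :
    coeffMap ι y ∈ modularFunctionFieldBar N := by
  let _ : Algebra L Qb := ι.toAlgebra
  rw [Fermat.Agent.S24_helper62.modularFunctionFieldBar_eq]
  unfold modularFunctionFieldFullC at hy ⊢
  rw [← coeffMap_image_divisorExpansionsC (L := L) (Om := Qb) N]
  exact mem_adjoin_coeffMap_image _ hy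

variable [NeZero N]

include ι in
/-- **`[L(X₀(N)) : L(j)] ≤ ψ(N)`**, and the extension is finite. -/
theorem finrank_fullC_le (z : ↥(modularFunctionFieldFullC L N))
    (hz : (z : LaurentSeries L) = jqModC L) :
    FiniteDimensional ↥(L⟮z⟯) ↥(modularFunctionFieldFullC L N) ∧
      Module.finrank ↥(L⟮z⟯) ↥(modularFunctionFieldFullC L N) ≤ dedekindPsi N := by
  let _ : Algebra L Qb := ι.toAlgebra
  have : Algebra.IsAlgebraic L Qb := isAlgebraic_of_ringHom ι
  have : FiniteDimensional (Fermat.Agent.S24.Kbar)⟮Fermat.Agent.S24.jF N⟯ (Fermat.Agent.S24.FN N) :=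
    (Fermat.Agent.S24_helper62.m9 N).2.1
  have hz' : ((Fermat.Agent.S24.jF N : Fermat.Agent.S24.FN N) : LaurentSeries Qb) =
      coeffMap (algebraMap L Qb) (z : LaurentSeries L) := by
    rw [Fermat.Agent.S24.coe_jF, hz, coeffMap_jqModC, coeffEmb, ← jqModC_rat, coeffMap_jqModC]
  have h := finrank_le (modularFunctionFieldFullC L N) (modularFunctionFieldBar N) z
    (Fermat.Agent.S24.jF N) hz' (fun y hy => coeffMap_mem_bar ι N hy)
  rw [Fermat.Agent.S24_helper62.finrank_FN] at h
  exact h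

end Main

end Fermat.Agent.GL.Base.DegreeFullC
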