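/-
GATE-L / L1e-DEG, `K₀` instance (helper1): `[K₀(X₀(N)) : K₀(j)] ≤ ψ(N)` and finite, in helper45's
`GL/Val/GaussK0` language (`K0 A = ℚ̄^{I_A}`, `genC (K0 A) (R0 A) N (one_dvd N) = j`).
-/
import Mathlib
import Fermat.Agent.GL.Base.DegreeFullC
import Fermat.Agent.GL.Val.GaussK0

set_option autoImplicit false

noncomputable section

namespace Fermat.Agent.GL.Base.DegreeK0

open ModularCurve HahnSeries IntermediateField
open Fermat.Agent.GK.Val.GaussBase Fermat.Agent.GL.Val.GaussK0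

local notation "Qb" => AlgebraicClosure ℚ

variable (A : ValuationSubring Qb) (N : ℕ) [NeZero N]

/-- `j` as an element of `K₀(X₀(N))` -/
abbrev jK0 : ↥(modularFunctionFieldFullC (K0 A) N) := genC (K0 A) (R0 A) N (one_dvd N)

omit [NeZero N] in
theorem coe_jK0 : ((jK0 A N : ↥(modularFunctionFieldFullC (K0 A) N)) : LaurentSeries (K0 A)) =
    jqModC (K0 A) := by
  rw [jK0, coe_genC, qExpand_one_apply]

theorem finiteDimensional_K0 :
    FiniteDimensional ↥((K0 A)⟮jK0 A N⟯) ↥(modularFunctionFieldFullC (K0 A) N) :=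
  (DegreeFullC.finrank_fullC_le (ι0 A) N (jK0 A N) (coe_jK0 A N)).1

/-- **`[K₀(X₀(N)) : K₀(j)] ≤ ψ(N)`** -/
theorem finrank_K0_le :
    Module.finrank ↥((K0 A)⟮jK0 A N⟯) ↥(modularFunctionFieldFullC (K0 A) N) ≤ dedekindPsi N :=
  (DegreeFullC.finrank_fullC_le (ι0 A) N (jK0 A N) (coe_jK0 A N)).2

end Fermat.Agent.GL.Base.DegreeK0
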